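import Mathlib
import Fermat.Prelude.Def_AlgebraicCurve_Correspondence
import Fermat.Prelude.Def_ModularCurve_HeckeOperatorTotal
import Fermat.Agent.E.Desc.Comm.Functorial
import Fermat.Agent.MU.Lib.BadRed.Nodal.Interp1
import Fermat.Agent.MU.Lib.RR.OfModularBar
import Fermat.Agent.MU.Lib.HeckeInputs.Modular

section MergeWrap_E_Desc_Comm_NormBC -- from E/Desc/Comm/NormBC.lean

set_option autoImplicit false
set_option linter.unusedSectionVars false
set_option linter.unusedVariables false
set_option linter.style.haveILetI false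

noncomputable section

open AlgebraicCurve

namespace Fermat.Agent.EDescComm

variable {K E L₁ L₂ M : Type*} [Field K] [Field E] [Field L₁] [Field L₂] [Field M]
  [Algebra K E] [Algebra K L₁] [Algebra K L₂] [Algebra K M]

/-- The norm of the finite extension given by an embedding `ψ`. -/
def normAlg (ψ : E →ₐ[K] L₁) : L₁ →* E :=
  letI := algebraAlong ψ
  Algebra.norm E

/-- the data of a "cartesian" square of fields. -/
structure IsBCSquare (a : E →ₐ[K] L₁) (b : E →ₐ[K] L₂) (a' : L₂ →ₐ[K] M) (b' : L₁ →ₐ[K] M) :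
    Prop where
  comm : a'.comp b = b'.comp a
  finite : FiniteAlong K a
  finrank_eq : finrankAlong K a' = finrankAlong K a
  span : letI := algebraAlong a'; ⊤ ≤ Submodule.span L₂ (Set.range b')

variable {a : E →ₐ[K] L₁} {b : E →ₐ[K] L₂} {a' : L₂ →ₐ[K] M} {b' : L₁ →ₐ[K] M}

theorem IsBCSquare.comm_apply (h : IsBCSquare a b a' b') (x : E) : a' (b x) = b' (a x) :=
  congrArg (fun f : E →ₐ[K] M => f x) h.comm

/-- the image of a basis of `L₁ / E` spans `M` over `L₂`. -/
theorem IsBCSquare.span_image_basis (h : IsBCSquare a b a' b') {ι : Type*} [Fintype ι]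
    (B : letI := algebraAlong a; Module.Basis ι E L₁) :
    letI := algebraAlong a'
    ⊤ ≤ Submodule.span L₂ (Set.range fun i => b' (B i)) := by
  letI := algebraAlong a
  letI := algebraAlong a'
  refine h.span.trans ?_
  rw [Submodule.span_le]
  rintro _ ⟨l, rfl⟩
  have hl : l = ∑ i, B.repr l i • B i := (B.sum_repr l).symm
  have h1 : b' l = ∑ i, (b (B.repr l i)) • b' (B i) := by
    conv_lhs => rw [hl]
    rw [map_sum]
    refine Finset.sum_congr rfl fun i _ => ?_
    rw [Algebra.smul_def, Algebra.smul_def, map_mul]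
    congr 1
    exact (h.comm_apply _).symm
  rw [h1]
  exact Submodule.sum_mem _ fun i _ =>
    Submodule.smul_mem _ _ (Submodule.subset_span ⟨i, rfl⟩)

/-- **Base change of the norm.** -/
theorem IsBCSquare.norm_eq (h : IsBCSquare a b a' b') (g : L₁) :
    normAlg a' (b' g) = b (normAlg a g) := by
  letI := algebraAlong a
  letI := algebraAlong a'
  haveI : Module.Finite E L₁ := h.finite
  set n := Module.finrank E L₁ with hn
  let B : Module.Basis (Fin n) E L₁ := Module.finBasis E L₁
  have hcard : Fintype.card (Fin n) = Module.finrank L₂ M := by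
    rw [Fintype.card_fin]
    exact h.finrank_eq.symm
  let B' : Module.Basis (Fin n) L₂ M :=
    basisOfTopLeSpanOfCardEqFinrank (fun i => b' (B i)) (h.span_image_basis B) hcard
  have hB' : ∀ i, B' i = b' (B i) := fun i => by
    simp only [B', coe_basisOfTopLeSpanOfCardEqFinrank]
  show Algebra.norm L₂ (b' g) = b (Algebra.norm E g)
  rw [Algebra.norm_eq_matrix_det B', Algebra.norm_eq_matrix_det B, AlgHom.map_det]
  congr 1
  ext i j
  rw [Algebra.leftMulMatrix_eq_repr_mul, AlgHom.mapMatrix_apply, Matrix.map_apply,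
    Algebra.leftMulMatrix_eq_repr_mul, hB']
  have h1 : b' g * b' (B j) = ∑ k, (b (B.repr (g * B j) k)) • B' k := by
    rw [← map_mul]
    conv_lhs => rw [← B.sum_repr (g * B j)]
    rw [map_sum]
    refine Finset.sum_congr rfl fun k _ => ?_
    rw [Algebra.smul_def, Algebra.smul_def, map_mul, hB']
    congr 1
    exact (h.comm_apply _).symm
  rw [h1, B'.repr_sum_self]

end Fermat.Agent.EDescComm
end
end MergeWrap_E_Desc_Comm_NormBC

section MergeWrap_E_Desc_Comm_DivBC -- from E/Desc/Comm/DivBC.lean

set_option autoImplicit false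
set_option linter.unusedSectionVars false
set_option linter.unusedVariables false
set_option linter.style.haveILetI false

noncomputable section

open AlgebraicCurve

namespace Fermat.Agent.EDescComm

section General

variable {K F F' : Type*} [Field K] [Field F] [Field F'] [Algebra K F] [Algebra K F']

/-- a push-forward vanishes at a place which is not below the support. -/
theorem pushforwardAlong_apply_eq_zero (φ : F →ₐ[K] F') (hφ : φ.toRingHom.IsIntegral)
    (D : Divisor K F') (v : Place K F)
    (h : ∀ w ∈ D.support, w.restrictAlong φ hφ ≠ v) :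
    Divisor.pushforwardAlong φ hφ D v = 0 := by
  classical
  letI := algebraAlong φ
  haveI := isScalarTower_along φ
  haveI := isIntegral_along φ hφ
  show Divisor.pushforward F D v = 0
  rw [Divisor.pushforward_apply]
  refine Finset.sum_eq_zero fun w hw => ?_
  rw [if_neg]
  exact h w hw

/-- the support of a pull-back lies over the support. -/
theorem restrictAlong_mem_support_of_mem_support_pullbackAlong [HasPrincipalDivisors K F']
    (φ : F →ₐ[K] F') (hφ : φ.toRingHom.IsIntegral) {D : Divisor K F} {w : Place K F'}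
    (hw : w ∈ (Divisor.pullbackAlong φ hφ D).support) :
    w.restrictAlong φ hφ ∈ D.support := by
  rw [Finsupp.mem_support_iff] at hw ⊢
  intro h0
  apply hw
  rw [Divisor.pullbackAlong_apply, h0, mul_zero]

/-- the norm formula, along `φ`. -/
theorem pushforwardAlong_apply_eq_ord_normAlg (φ : F →ₐ[K] F') (hφ : φ.toRingHom.IsIntegral)
    (hfin : FiniteAlong K φ) (hN : NormFormulaAlong K φ hfin) {f : F'} (hf : f ≠ 0)
    {D : Divisor K F'} (hD : ∀ w : Place K F', D w = w.ord f) (v : Place K F) :
    Divisor.pushforwardAlong φ hφ D v = v.ord (normAlg φ f) := by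
  letI := algebraAlong φ
  haveI := isScalarTower_along φ
  haveI := isIntegral_along φ hφ
  haveI : Module.Finite F F' := hfin
  exact hN f hf D hD v

/-- an additive map between divisor groups is determined by its values on the places. -/
theorem addMonoidHom_apply_eq_sum {α β : Type*} (Φ : (α →₀ ℤ) →+ (β →₀ ℤ)) (D : α →₀ ℤ)
    (q : β) : Φ D q = ∑ p ∈ D.support, D p * Φ (Finsupp.single p 1) q := by
  classical
  induction D using Finsupp.induction_linear with
  | zero => simp
  | add D₁ D₂ h₁ h₂ =>
    rw [map_add, Finsupp.add_apply, h₁, h₂]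
    have e₁ : ∑ p ∈ D₁.support, D₁ p * Φ (Finsupp.single p 1) q
        = ∑ p ∈ D₁.support ∪ D₂.support, D₁ p * Φ (Finsupp.single p 1) q := by
      refine Finset.sum_subset Finset.subset_union_left fun p _ hp => ?_
      rw [Finsupp.notMem_support_iff.mp hp, zero_mul]
    have e₂ : ∑ p ∈ D₂.support, D₂ p * Φ (Finsupp.single p 1) q
        = ∑ p ∈ D₁.support ∪ D₂.support, D₂ p * Φ (Finsupp.single p 1) q := by
      refine Finset.sum_subset Finset.subset_union_right fun p _ hp => ?_
      rw [Finsupp.notMem_support_iff.mp hp, zero_mul]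
    have e₃ : ∑ p ∈ (D₁ + D₂).support, (D₁ + D₂) p * Φ (Finsupp.single p 1) q
        = ∑ p ∈ D₁.support ∪ D₂.support, (D₁ + D₂) p * Φ (Finsupp.single p 1) q := by
      refine Finset.sum_subset Finsupp.support_add fun p _ hp => ?_
      rw [Finsupp.notMem_support_iff.mp hp, zero_mul]
    rw [e₁, e₂, e₃, ← Finset.sum_add_distrib]
    refine Finset.sum_congr rfl fun p _ => ?_
    rw [Finsupp.add_apply, add_mul]
  | single p n =>
    have h1 : Finsupp.single p n = n • Finsupp.single p (1 : ℤ) := by
      rw [Finsupp.smul_single, smul_eq_mul, mul_one]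
    by_cases hn : n = 0
    · subst hn
      simp
    · rw [Finsupp.support_single _ hn, Finset.sum_singleton, Finsupp.single_eq_same]
      conv_lhs => rw [h1, map_zsmul, Finsupp.smul_apply, smul_eq_mul]

end General

variable {K E L₁ L₂ M : Type*} [Field K] [Field E] [Field L₁] [Field L₂] [Field M]
  [Algebra K E] [Algebra K L₁] [Algebra K L₂] [Algebra K M]
  [HasPrincipalDivisors K L₁] [HasPrincipalDivisors K L₂] [HasPrincipalDivisors K M]

/-- weak approximation at one place, relative to a finite set of places. -/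
def WeakApprox (K F : Type*) [Field K] [Field F] [Algebra K F] : Prop :=
  ∀ (P : Place K F) (U : Finset (Place K F)),
    ∃ g : F, g ≠ 0 ∧ P.ord g = 1 ∧ ∀ P' ∈ U, P' ≠ P → P'.ord g = 0

variable (a : E →ₐ[K] L₁) (b : E →ₐ[K] L₂) (a' : L₂ →ₐ[K] M) (b' : L₁ →ₐ[K] M)
  (ha : a.toRingHom.IsIntegral) (hb : b.toRingHom.IsIntegral)
  (ha' : a'.toRingHom.IsIntegral) (hb' : b'.toRingHom.IsIntegral)

/-- the defect of base change. -/
def bcDefect : Divisor K L₁ →+ Divisor K L₂ :=
  (Divisor.pullbackAlong b hb).comp (Divisor.pushforwardAlong a ha) -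
    (Divisor.pushforwardAlong a' ha').comp (Divisor.pullbackAlong b' hb')

theorem bcDefect_apply (D : Divisor K L₁) :
    bcDefect a b a' b' ha hb ha' hb' D =
      Divisor.pullbackAlong b hb (Divisor.pushforwardAlong a ha D) -
        Divisor.pushforwardAlong a' ha' (Divisor.pullbackAlong b' hb' D) := rfl

variable {a b a' b'}

/-- the defect vanishes on principal divisors. -/
theorem bcDefect_principal (hsq : IsBCSquare a b a' b')
    (hNa : NormFormulaAlong K a hsq.finite)
    (hfin' : FiniteAlong K a') (hNa' : NormFormulaAlong K a' hfin')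
    {g : L₁} (hg : g ≠ 0) {D : Divisor K L₁} (hD : ∀ w : Place K L₁, D w = w.ord g) :
    bcDefect a b a' b' ha hb ha' hb' D = 0 := by
  ext Q
  rw [bcDefect_apply, Finsupp.sub_apply, Finsupp.zero_apply, sub_eq_zero,
    Divisor.pullbackAlong_apply,
    pushforwardAlong_apply_eq_ord_normAlg a ha hsq.finite hNa hg hD,
    ← Place.ord_restrictAlong b hb Q,
    pushforwardAlong_apply_eq_ord_normAlg a' ha' hfin' hNa' (f := b' g)
      (by simpa using hg) (D := Divisor.pullbackAlong b' hb' D)
      (fun w => by rw [Divisor.pullbackAlong_apply, hD, ← Place.ord_restrictAlong]),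
    hsq.norm_eq g]

/-- the defect is local over `E`. -/
theorem bcDefect_single_apply_of_ne (hsq : IsBCSquare a b a' b')
    (hE : ∀ v : Place K E, v.deg = 1) (hL₁ : ∀ v : Place K L₁, v.deg = 1)
    (P : Place K L₁) (n : ℤ) (Q : Place K L₂)
    (hne : P.restrictAlong a ha ≠ Q.restrictAlong b hb) :
    bcDefect a b a' b' ha hb ha' hb' (Finsupp.single P n) Q = 0 := by
  rw [bcDefect_apply, Finsupp.sub_apply]
  have h1 : Divisor.pullbackAlong b hb (Divisor.pushforwardAlong a ha (Finsupp.single P n)) Q
      = 0 := by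
    rw [Divisor.pullbackAlong_apply, pushforwardAlong_single_of_deg_one a ha hE hL₁,
      Finsupp.single_eq_of_ne (fun h => hne h.symm), mul_zero]
  have h2 : Divisor.pushforwardAlong a' ha'
      (Divisor.pullbackAlong b' hb' (Finsupp.single P n)) Q = 0 := by
    apply pushforwardAlong_apply_eq_zero
    intro R hR hRQ
    have hRP := restrictAlong_mem_support_of_mem_support_pullbackAlong b' hb' hR
    have hRP' : R.restrictAlong b' hb' = P := by
      by_contra hcon
      rw [Finsupp.mem_support_iff, Finsupp.single_eq_of_ne hcon] at hRP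
      exact hRP rfl
    apply hne
    have hint : (a'.comp b).toRingHom.IsIntegral := isIntegral_comp b a' hb ha'
    have hint' : (b'.comp a).toRingHom.IsIntegral := isIntegral_comp a b' ha hb'
    rw [← hRP', ← hRQ, ← restrictAlong_comp a b' ha hb' hint' R,
      ← restrictAlong_comp b a' hb ha' hint R]
    exact (restrictAlong_eq_of_eq hsq.comm hint hint' R).symm
  rw [h1, h2, sub_zero]

/-- **Base change for divisors**: `b^* ∘ a_* = a'_* ∘ b'^*`. -/
theorem bcDefect_eq_zero (hsq : IsBCSquare a b a' b')
    (hNa : NormFormulaAlong K a hsq.finite)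
    (hfin' : FiniteAlong K a') (hNa' : NormFormulaAlong K a' hfin')
    (hE : ∀ v : Place K E, v.deg = 1) (hL₁ : ∀ v : Place K L₁, v.deg = 1)
    (happ : WeakApprox K L₁) :
    bcDefect a b a' b' ha hb ha' hb' = 0 := by
  classical
  refine Finsupp.addHom_ext fun P n => ?_
  rw [AddMonoidHom.zero_apply]
  ext Q
  rw [Finsupp.zero_apply]
  by_cases hPQ : P.restrictAlong a ha = Q.restrictAlong b hb
  · -- the interesting case
    have hkey : bcDefect a b a' b' ha hb ha' hb' (Finsupp.single P 1) Q = 0 := by
      obtain ⟨g, hg0, hgP, hgU⟩ := happ P (Place.fiberAlong a ha (P.restrictAlong a ha))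
      obtain ⟨D, hD, -⟩ := HasPrincipalDivisors.exists_divisor (K := K) g hg0
      have h0 := bcDefect_principal ha hb ha' hb' hsq hNa hfin' hNa' hg0 hD
      have h1 := addMonoidHom_apply_eq_sum (bcDefect a b a' b' ha hb ha' hb') D Q
      rw [h0, Finsupp.zero_apply] at h1
      have hPsupp : P ∈ D.support := by
        rw [Finsupp.mem_support_iff, hD, hgP]
        exact one_ne_zero
      rw [Finset.sum_eq_single P, hD, hgP, one_mul] at h1
      · exact h1.symm
      · intro P' _ hP'
        by_cases hfib : P' ∈ Place.fiberAlong a ha (P.restrictAlong a ha)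
        · rw [hD, hgU P' hfib hP', zero_mul]
        · rw [Place.mem_fiberAlong] at hfib
          rw [bcDefect_single_apply_of_ne ha hb ha' hb' hsq hE hL₁ P' 1 Q
            (fun h => hfib (h.trans hPQ.symm)), mul_zero]
      · intro h
        exact absurd hPsupp h
    have h2 := addMonoidHom_apply_eq_sum (bcDefect a b a' b' ha hb ha' hb')
      (Finsupp.single P n) Q
    rw [h2]
    refine Finset.sum_eq_zero fun P' hP' => ?_
    have hP'P : P' = P := by
      by_contra hcon
      rw [Finsupp.mem_support_iff, Finsupp.single_eq_of_ne hcon] at hP'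
      exact hP' rfl
    rw [hP'P, hkey, mul_zero]
  · exact bcDefect_single_apply_of_ne ha hb ha' hb' hsq hE hL₁ P n Q hPQ

/-- **Base change for divisors**, applied form. -/
theorem pullbackAlong_pushforwardAlong (hsq : IsBCSquare a b a' b')
    (hNa : NormFormulaAlong K a hsq.finite)
    (hfin' : FiniteAlong K a') (hNa' : NormFormulaAlong K a' hfin')
    (hE : ∀ v : Place K E, v.deg = 1) (hL₁ : ∀ v : Place K L₁, v.deg = 1)
    (happ : WeakApprox K L₁) (D : Divisor K L₁) :
    Divisor.pullbackAlong b hb (Divisor.pushforwardAlong a ha D) =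
      Divisor.pushforwardAlong a' ha' (Divisor.pullbackAlong b' hb' D) := by
  have h := congrArg (fun Φ : Divisor K L₁ →+ Divisor K L₂ => Φ D)
    (bcDefect_eq_zero ha hb ha' hb' hsq hNa hfin' hNa' hE hL₁ happ)
  simp only [bcDefect_apply, AddMonoidHom.zero_apply] at h
  exact sub_eq_zero.mp h

end Fermat.Agent.EDescComm
end
end MergeWrap_E_Desc_Comm_DivBC

section MergeWrap_E_Desc_Comm_Abstract -- from E/Desc/Comm/Abstract.lean

set_option autoImplicit false
set_option linter.unusedSectionVars false
set_option linter.unusedVariables false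
set_option linter.style.haveILetI false

noncomputable section

open AlgebraicCurve

namespace Fermat.Agent.EDescComm

variable {K E Lr Ls M : Type*} [Field K] [Field E] [Field Lr] [Field Ls] [Field M]
  [Algebra K E] [Algebra K Lr] [Algebra K Ls] [Algebra K M]
  [HasPrincipalDivisors K Lr] [HasPrincipalDivisors K Ls] [HasPrincipalDivisors K M]

/-- the data making two correspondences commute. -/
structure CommData (αr βr : E →ₐ[K] Lr) (αs βs : E →ₐ[K] Ls) (As Bs : Lr →ₐ[K] M)
    (Ar Br : Ls →ₐ[K] M) : Prop where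
  sq₁ : IsBCSquare αs βr As Br
  sq₂ : IsBCSquare αr βs Ar Bs
  incl : As.comp αr = Ar.comp αs
  scale : Br.comp βs = Bs.comp βr
  finAs : FiniteAlong K As
  finAr : FiniteAlong K Ar
  normαs : NormFormulaAlong K αs sq₁.finite
  normαr : NormFormulaAlong K αr sq₂.finite
  normAs : NormFormulaAlong K As finAs
  normAr : NormFormulaAlong K Ar finAr
  degE : ∀ v : Place K E, v.deg = 1
  degLr : ∀ v : Place K Lr, v.deg = 1
  degLs : ∀ v : Place K Ls, v.deg = 1
  degM : ∀ v : Place K M, v.deg = 1
  approxLr : WeakApprox K Lr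
  approxLs : WeakApprox K Ls

variable {αr βr : E →ₐ[K] Lr} {αs βs : E →ₐ[K] Ls} {As Bs : Lr →ₐ[K] M} {Ar Br : Ls →ₐ[K] M}

/-- **Commutation of correspondences**, on divisors. -/
theorem CommData.correspondence_comm (h : CommData αr βr αs βs As Bs Ar Br)
    (hαr : αr.toRingHom.IsIntegral) (hβr : βr.toRingHom.IsIntegral)
    (hαs : αs.toRingHom.IsIntegral) (hβs : βs.toRingHom.IsIntegral)
    (hAs : As.toRingHom.IsIntegral) (hBs : Bs.toRingHom.IsIntegral)
    (hAr : Ar.toRingHom.IsIntegral) (hBr : Br.toRingHom.IsIntegral)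
    (D : Divisor K E) :
    Divisor.correspondence βr αr hβr hαr (Divisor.correspondence βs αs hβs hαs D) =
      Divisor.correspondence βs αs hβs hαs (Divisor.correspondence βr αr hβr hαr D) := by
  simp only [Divisor.correspondence_apply]
  -- left hand side
  have hL : Divisor.pushforwardAlong αr hαr (Divisor.pullbackAlong βr hβr
      (Divisor.pushforwardAlong αs hαs (Divisor.pullbackAlong βs hβs D)))
      = Divisor.pushforwardAlong (As.comp αr) (isIntegral_comp αr As hαr hAs)
          (Divisor.pullbackAlong (Br.comp βs) (isIntegral_comp βs Br hβs hBr) D) := by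
    rw [pullbackAlong_pushforwardAlong hαs hβr hAs hBr h.sq₁ h.normαs h.finAs h.normAs
        h.degE h.degLs h.approxLs,
      pushforwardAlong_comp αr As hαr hAs (isIntegral_comp αr As hαr hAs) h.degE h.degLr h.degM,
      pullbackAlong_comp βs Br hβs hBr (isIntegral_comp βs Br hβs hBr)]
  have hR : Divisor.pushforwardAlong αs hαs (Divisor.pullbackAlong βs hβs
      (Divisor.pushforwardAlong αr hαr (Divisor.pullbackAlong βr hβr D)))
      = Divisor.pushforwardAlong (Ar.comp αs) (isIntegral_comp αs Ar hαs hAr)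
          (Divisor.pullbackAlong (Bs.comp βr) (isIntegral_comp βr Bs hβr hBs) D) := by
    rw [pullbackAlong_pushforwardAlong hαr hβs hAr hBs h.sq₂ h.normαr h.finAr h.normAr
        h.degE h.degLr h.approxLr,
      pushforwardAlong_comp αs Ar hαs hAr (isIntegral_comp αs Ar hαs hAr) h.degE h.degLs h.degM,
      pullbackAlong_comp βr Bs hβr hBs (isIntegral_comp βr Bs hβr hBs)]
  rw [hL, hR, pushforwardAlong_eq_of_eq h.incl _ (isIntegral_comp αs Ar hαs hAr),
    pullbackAlong_eq_of_eq h.scale _ (isIntegral_comp βr Bs hβr hBs)]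

/-- **Commutation of correspondences**, on `Pic⁰`. -/
theorem CommData.pic0_correspondence_comm (h : CommData αr βr αs βs As Bs Ar Br)
    (hαr : αr.toRingHom.IsIntegral) (hβr : βr.toRingHom.IsIntegral)
    (hαs : αs.toRingHom.IsIntegral) (hβs : βs.toRingHom.IsIntegral)
    (hAs : As.toRingHom.IsIntegral) (hBs : Bs.toRingHom.IsIntegral)
    (hAr : Ar.toRingHom.IsIntegral) (hBr : Br.toRingHom.IsIntegral)
    (hFIr : FundamentalIdentityAlong K βr hβr) (hfinr : FiniteAlong K αr)
    (hNr : NormFormulaAlong K αr hfinr)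
    (hFIs : FundamentalIdentityAlong K βs hβs) (hfins : FiniteAlong K αs)
    (hNs : NormFormulaAlong K αs hfins) (x : Pic0 K E) :
    Pic0.correspondence βr αr hβr hαr hFIr hfinr hNr
        (Pic0.correspondence βs αs hβs hαs hFIs hfins hNs x) =
      Pic0.correspondence βs αs hβs hαs hFIs hfins hNs
        (Pic0.correspondence βr αr hβr hαr hFIr hfinr hNr x) := by
  obtain ⟨D, rfl⟩ := Pic0.mk_surjective x
  rw [Pic0.correspondence_mk, Pic0.correspondence_mk, Pic0.correspondence_mk,
    Pic0.correspondence_mk]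
  congr 1
  apply Subtype.ext
  rw [Pic0.coe_degZeroCorrespondence, Pic0.coe_degZeroCorrespondence,
    Pic0.coe_degZeroCorrespondence, Pic0.coe_degZeroCorrespondence]
  exact h.correspondence_comm hαr hβr hαs hβs hAs hBs hAr hBr D

end Fermat.Agent.EDescComm
end
end MergeWrap_E_Desc_Comm_Abstract

section MergeWrap_E_Desc_Comm_Levels -- from E/Desc/Comm/Levels.lean

set_option autoImplicit false
set_option linter.unusedSectionVars false
set_option linter.unusedVariables false
set_option linter.style.haveILetI false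

noncomputable section

open AlgebraicCurve ModularCurve

namespace Fermat.Agent.EDescComm

local notation "Qb" => AlgebraicClosure ℚ

/-! ### weak approximation -/

section Approx

variable {K F : Type*} [Field K] [Field F] [Algebra K F]

open Fermat.Agent.RR in
/-- weak approximation from Riemann–Roch. -/
theorem weakApprox_of_isRRField (h : IsRRField K F) [Infinite K] : WeakApprox K F := by
  classical
  intro P U
  set m : ℤ := 2 * (genusFF K F : ℤ) + 1 with hm
  have hd1 : 2 * (genusFF K F : ℤ) - 1 < Divisor.degree (Finsupp.single P m) := by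
    rw [degree_single_one h]
    omega
  have hd2 : 2 * (genusFF K F : ℤ) - 1 < Divisor.degree (Finsupp.single P (m + 1)) := by
    rw [degree_single_one h]
    omega
  obtain ⟨f₁, -, hf₁, h₁⟩ :=
    Fermat.Agent.BadRed.Interp1.exists_exact_ord h (Finsupp.single P m) hd1 (insert P U)
  obtain ⟨f₂, -, hf₂, h₂⟩ :=
    Fermat.Agent.BadRed.Interp1.exists_exact_ord h (Finsupp.single P (m + 1)) hd2 (insert P U)
  refine ⟨f₁ / f₂, div_ne_zero hf₁ hf₂, ?_, ?_⟩
  · rw [div_eq_mul_inv, P.ord_mul hf₁ (inv_ne_zero hf₂), P.ord_inv,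
      h₁ P (Finset.mem_insert_self _ _), h₂ P (Finset.mem_insert_self _ _),
      Finsupp.single_eq_same, Finsupp.single_eq_same]
    ring
  · intro P' hP' hne
    rw [div_eq_mul_inv, P'.ord_mul hf₁ (inv_ne_zero hf₂), P'.ord_inv,
      h₁ P' (Finset.mem_insert_of_mem hP'), h₂ P' (Finset.mem_insert_of_mem hP'),
      Finsupp.single_eq_of_ne hne, Finsupp.single_eq_of_ne hne]
    ring

end Approx

theorem weakApprox_bar (A : ℕ) [NeZero A] : WeakApprox Qb ↥(modularFunctionFieldBar A) :=
  weakApprox_of_isRRField (Fermat.Agent.RRMod.isRRField_bar A)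

theorem deg_one_bar (A : ℕ) [NeZero A] (v : Place Qb ↥(modularFunctionFieldBar A)) :
    v.deg = 1 :=
  (Fermat.Agent.RRMod.isRRField_bar A).deg_one v

instance hasPrincipalDivisors_barI (A : ℕ) [NeZero A] :
    HasPrincipalDivisors Qb ↥(modularFunctionFieldBar A) :=
  Fermat.Agent.S24Diff.hasPrincipalDivisors (Fermat.Agent.S24.isFunctionFieldOver_jBar A)

/-! ### formal inputs of a homomorphism between levels -/

section Inputs

variable {A B : ℕ} [NeZero A] [NeZero B]
  (φ : ↥(modularFunctionFieldBar A) →ₐ[Qb] ↥(modularFunctionFieldBar B))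

theorem finiteAlong_bar : FiniteAlong Qb φ :=
  Fermat.Agent.HeckeInputs.hi_finiteAlong φ
    (Fermat.Agent.S24.isFunctionFieldOver_jBar A).transcendental
    (Fermat.Agent.S24.isFunctionFieldOver_jBar B)

theorem isIntegral_bar : φ.toRingHom.IsIntegral :=
  Fermat.Agent.HeckeInputs.hi_isIntegral_of_finiteAlong φ (finiteAlong_bar φ)

theorem normFormulaAlong_bar (hfin : FiniteAlong Qb φ) : NormFormulaAlong Qb φ hfin :=
  Fermat.Agent.HeckeInputs.hi_normFormulaAlong φ hfin
    (Fermat.Agent.S24.isFunctionFieldOver_jBar A) (Fermat.Agent.S24.isFunctionFieldOver_jBar B)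

theorem fundamentalIdentityAlong_bar (hφ : φ.toRingHom.IsIntegral) :
    FundamentalIdentityAlong Qb φ hφ :=
  Fermat.Agent.HeckeInputs.hi_fundamentalIdentityAlong φ hφ
    (Fermat.Agent.S24.isFunctionFieldOver_jBar A) (Fermat.Agent.S24.isFunctionFieldOver_jBar B)

end Inputs

/-! ### the degeneracy maps -/

section Maps

variable {A B : ℕ} [NeZero A] [NeZero B]

theorem fbar_le_of_mul_eq (c : ℕ) [NeZero c] (h : A * c = B) :
    modularFunctionFieldBar A ≤ modularFunctionFieldBar B := by
  intro x hx
  have h1 := (heckeAlphaBar Qb A c ⟨x, hx⟩).2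
  rw [coe_heckeAlphaBar, h] at h1
  exact h1

theorem qExpand_mem_of_mul_eq (d : ℕ) [NeZero d] (h : A * d = B)
    (x : ↥(modularFunctionFieldBar A)) :
    qExpand Qb d (x : LaurentSeries Qb) ∈ modularFunctionFieldBar B := by
  have h1 := (heckeBetaBar Qb A d x).2
  rw [coe_heckeBetaBar, h] at h1
  exact h1

/-- the inclusion `F_A → F_B`, `B = A c`. -/
def inclF (c : ℕ) [NeZero c] (h : A * c = B) :
    ↥(modularFunctionFieldBar A) →ₐ[Qb] ↥(modularFunctionFieldBar B) :=
  IntermediateField.inclusion (fbar_le_of_mul_eq c h)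

/-- the map `f(q) ↦ f(q^d)`, `F_A → F_B`, `B = A d`. -/
def scaleF (d : ℕ) [NeZero d] (h : A * d = B) :
    ↥(modularFunctionFieldBar A) →ₐ[Qb] ↥(modularFunctionFieldBar B) :=
  ((qExpandAlgHomC Qb d).comp (modularFunctionFieldBar A).val).codRestrict
    (modularFunctionFieldBar B).toSubalgebra (fun x => qExpand_mem_of_mul_eq d h x)

theorem coe_inclF (c : ℕ) [NeZero c] (h : A * c = B) (x : ↥(modularFunctionFieldBar A)) :
    ((inclF c h x : ↥(modularFunctionFieldBar B)) : LaurentSeries Qb) = (x : LaurentSeries Qb) :=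
  IntermediateField.coe_inclusion _ x

theorem coe_scaleF (d : ℕ) [NeZero d] (h : A * d = B) (x : ↥(modularFunctionFieldBar A)) :
    ((scaleF d h x : ↥(modularFunctionFieldBar B)) : LaurentSeries Qb) =
      qExpand Qb d (x : LaurentSeries Qb) := rfl

theorem heckeAlphaBar_eq_inclF (N ℓ : ℕ) [NeZero N] [NeZero ℓ] :
    heckeAlphaBar Qb N ℓ = inclF ℓ rfl := by
  apply AlgHom.ext
  intro x
  apply Subtype.ext
  rw [coe_heckeAlphaBar, coe_inclF]

theorem heckeBetaBar_eq_scaleF (N ℓ : ℕ) [NeZero N] [NeZero ℓ] :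
    heckeBetaBar Qb N ℓ = scaleF ℓ rfl := by
  apply AlgHom.ext
  intro x
  apply Subtype.ext
  rw [coe_heckeBetaBar, coe_scaleF]

end Maps

end Fermat.Agent.EDescComm
end
end MergeWrap_E_Desc_Comm_Levels
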